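import Fermat.Agent.S59.H7.HeckeLocalCore

/-!
# Row S59, cell TW, layer 3 (AUT), generic piece LOC-ACT (helper24)

**From an action of the global Hecke ring to an action of the local Hecke ring.**

Let `𝕋 = CuspForm.heckeAlgebra N 2 S`, `θ : 𝕋 →+* k` (`k` the residue field of the complete
discrete valuation ring `𝒪`), `T = CuspForm.heckeLocal N S 𝒪 θ` and `M` a finite `𝒪`-module with
a ring homomorphism `f : 𝕋 →+* End_𝒪(M)`.

* `Fermat.Agent.S59.TW.H24.exists_algHom_of_injective`: if every `x ∈ 𝒪 ⊗ 𝕋` outside the maximal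
  ideal `heckeCharKernel` acts injectively on `M`, the action factors through `T`:
  there is `a : T →ₐ[𝒪] End_𝒪(M)` with `a (π t) = f t`.  (No finiteness of `M` needed.)
* `Fermat.Agent.S59.TW.H24.exists_algHom_of_nilp`: the same conclusion if `M` is finite over `𝒪`
  and every GENERATOR `t` of `𝕋` (the `T_ℓ`, `U_q` of `CuspForm.heckeGenerators`) satisfies
  `(f t - c)^m M ⊆ 𝔪_𝒪 M` for some lift `c ∈ 𝒪` of `θ t` and some `m`.
  This is the shape produced by a localisation `V = e X` of a Betti module at the maximal ideal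
  `(𝔪_𝒪, T_ℓ - c_ℓ)` (leaves MOD0 / MODQ of `TW/Aut/Spec.lean`).
* `Fermat.Agent.S59.TW.H24.bijective_tensorAct`: under the same hypothesis every `x ∉ 𝔫` acts
  bijectively on `M`.

Commutative algebra only (Nakayama, `B → T` surjective [helper7]).
-/

set_option autoImplicit false
set_option synthInstance.maxHeartbeats 400000
set_option maxHeartbeats 1000000
set_option linter.unusedSectionVars false

noncomputable section

namespace Fermat.Agent.S59.TW.H24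

open CuspForm IsLocalRing
open scoped TensorProduct

variable (N : ℕ) [NeZero N] (S : Set ℕ)
variable (𝒪 : Type) [CommRing 𝒪] [IsDomain 𝒪] [IsDiscreteValuationRing 𝒪]
  [IsAdicComplete (IsLocalRing.maximalIdeal 𝒪) 𝒪]
variable (θ : heckeAlgebra N 2 S →+* IsLocalRing.ResidueField 𝒪)
variable {M : Type*} [AddCommGroup M] [Module 𝒪 M]

/-- The action of `𝒪 ⊗ 𝕋` on `M` induced by `f : 𝕋 →+* End_𝒪(M)`. -/
def tensorAct (f : heckeAlgebra N 2 S →+* Module.End 𝒪 M) :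
    (𝒪 ⊗[ℤ] ↥(heckeAlgebra N 2 S)) →ₐ[𝒪] Module.End 𝒪 M :=
  Algebra.TensorProduct.lift (Algebra.ofId 𝒪 (Module.End 𝒪 M)) f.toIntAlgHom
    (fun a t => Algebra.commutes a (f t))

theorem tensorAct_tmul (f : heckeAlgebra N 2 S →+* Module.End 𝒪 M) (a : 𝒪)
    (t : ↥(heckeAlgebra N 2 S)) :
    tensorAct N S 𝒪 f (a ⊗ₜ[ℤ] t) = a • f t := by
  rw [tensorAct, Algebra.TensorProduct.lift_tmul]
  change algebraMap 𝒪 (Module.End 𝒪 M) a * f t = a • f t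
  rw [Algebra.smul_def]

theorem tensorAct_one_tmul (f : heckeAlgebra N 2 S →+* Module.End 𝒪 M)
    (t : ↥(heckeAlgebra N 2 S)) :
    tensorAct N S 𝒪 f ((1 : 𝒪) ⊗ₜ[ℤ] t) = f t := by
  rw [tensorAct_tmul, one_smul]

/-! ## The map `𝒪 ⊗ 𝕋 → T` -/

section Factor

variable [Fact (HasIntegralStructure N 2)]

/-- `𝒪 ⊗ 𝕋 → T` as an `𝒪`-algebra map. -/
def toLocal : (𝒪 ⊗[ℤ] ↥(heckeAlgebra N 2 S)) →ₐ[𝒪] heckeLocal N S 𝒪 θ :=
  { (algebraMap (heckeBaseAlgebra N S 𝒪) (heckeLocal N S 𝒪 θ)).comp (latticeBaseChange N S 𝒪) with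
    commutes' := fun a => (Fermat.Agent.S59.H7.algebraMap_eq N S 𝒪 θ a).symm }

theorem toLocal_apply (x : 𝒪 ⊗[ℤ] ↥(heckeAlgebra N 2 S)) :
    toLocal N S 𝒪 θ x =
      algebraMap (heckeBaseAlgebra N S 𝒪) (heckeLocal N S 𝒪 θ) (latticeBaseChange N S 𝒪 x) := rfl

theorem toLocal_one_tmul (t : ↥(heckeAlgebra N 2 S)) :
    toLocal N S 𝒪 θ ((1 : 𝒪) ⊗ₜ[ℤ] t) = heckeLocal.π N S 𝒪 θ t := rfl

theorem toLocal_surjective : Function.Surjective (toLocal N S 𝒪 θ) := fun z => by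
  obtain ⟨b, rfl⟩ := Fermat.Agent.S59.H7.algebraMap_base_surjective N S 𝒪 θ z
  obtain ⟨x, rfl⟩ := latticeBaseChange_surjective N S 𝒪 b
  exact ⟨x, rfl⟩

/-- The kernel of `𝒪 ⊗ 𝕋 → T` is killed by elements outside the maximal ideal. -/
theorem exists_mul_eq_zero_of_toLocal_eq_zero {x : 𝒪 ⊗[ℤ] ↥(heckeAlgebra N 2 S)}
    (hx : toLocal N S 𝒪 θ x = 0) :
    ∃ s : 𝒪 ⊗[ℤ] ↥(heckeAlgebra N 2 S), s ∉ heckeCharKernel N S 𝒪 θ ∧ s * x = 0 := by
  rw [toLocal_apply, IsLocalization.map_eq_zero_iff (heckeLocalSubmonoid N S 𝒪 θ)] at hx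
  obtain ⟨⟨m, s, hs, rfl⟩, hm⟩ := hx
  refine ⟨s, Ideal.mem_primeCompl_iff.mp hs, ?_⟩
  apply latticeBaseChange_injective N S 𝒪 Fact.out
  rw [map_mul, map_zero]
  exact hm

/-- **LOC-ACT, injective form.**  If every element of `𝒪 ⊗ 𝕋` outside the maximal ideal of `θ` acts
injectively on `M`, the action of `𝕋` on `M` extends to the local Hecke ring `T`. -/
theorem exists_algHom_of_injective (f : heckeAlgebra N 2 S →+* Module.End 𝒪 M)
    (hinj : ∀ s : 𝒪 ⊗[ℤ] ↥(heckeAlgebra N 2 S), s ∉ heckeCharKernel N S 𝒪 θ →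
      Function.Injective (tensorAct N S 𝒪 f s)) :
    ∃ a : heckeLocal N S 𝒪 θ →ₐ[𝒪] Module.End 𝒪 M,
      (∀ x, a (toLocal N S 𝒪 θ x) = tensorAct N S 𝒪 f x) ∧
      ∀ t, a (heckeLocal.π N S 𝒪 θ t) = f t := by
  have H : ∀ x ∈ RingHom.ker (toLocal N S 𝒪 θ), tensorAct N S 𝒪 f x = 0 := by
    intro x hx
    obtain ⟨s, hs, hsx⟩ := exists_mul_eq_zero_of_toLocal_eq_zero N S 𝒪 θ (RingHom.mem_ker.mp hx)
    have h1 : tensorAct N S 𝒪 f s * tensorAct N S 𝒪 f x = 0 := by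
      rw [← map_mul, hsx, map_zero]
    refine LinearMap.ext fun y => hinj s hs ?_
    have h2 := congrArg (fun φ : Module.End 𝒪 M => φ y) h1
    rw [LinearMap.zero_apply, map_zero]
    exact h2
  have hmain : ∃ a : heckeLocal N S 𝒪 θ →ₐ[𝒪] Module.End 𝒪 M,
      ∀ x, a (toLocal N S 𝒪 θ x) = tensorAct N S 𝒪 f x := by
    refine ⟨(Ideal.Quotient.liftₐ (RingHom.ker (toLocal N S 𝒪 θ)) (tensorAct N S 𝒪 f) H).comp
      (Ideal.quotientKerAlgEquivOfSurjective (toLocal_surjective N S 𝒪 θ)).symm.toAlgHom,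
      fun x => ?_⟩
    rw [AlgHom.comp_apply]
    have h3 : (Ideal.quotientKerAlgEquivOfSurjective (toLocal_surjective N S 𝒪 θ)).symm.toAlgHom
        (toLocal N S 𝒪 θ x) = Ideal.Quotient.mk _ x :=
      Ideal.quotientKerAlgEquivOfSurjective_symm_apply (toLocal_surjective N S 𝒪 θ) x
    rw [h3]
    rfl
  obtain ⟨a, ha⟩ := hmain
  refine ⟨a, ha, fun t => ?_⟩
  rw [← toLocal_one_tmul, ha, tensorAct_one_tmul]

end Factor

/-! ## Generators of the maximal ideal of `θ` -/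

section Span

omit [IsAdicComplete (IsLocalRing.maximalIdeal 𝒪) 𝒪]

/-- The maximal ideal `heckeCharKernel` of `𝒪 ⊗ 𝕋` is generated by `𝔪_𝒪` and by the
`1 ⊗ t - c ⊗ 1`, `t` a generator of `𝕋`, `c` a lift of `θ t` (one lift for each generator is
enough; `P` is a side condition on the lifts). -/
theorem heckeCharKernel_le_span (P : ↥(heckeAlgebra N 2 S) → 𝒪 → Prop)
    (hP : ∀ t : ↥(heckeAlgebra N 2 S),
      (t : Module.End ℂ (CuspForm (CongruenceSubgroup.Gamma0 N) 2)) ∈ heckeGenerators N 2 S →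
      ∃ c : 𝒪, residue 𝒪 c = θ t ∧ P t c) :
    heckeCharKernel N S 𝒪 θ ≤ Ideal.span
      ({x | ∃ a ∈ maximalIdeal 𝒪, x = a ⊗ₜ[ℤ] (1 : ↥(heckeAlgebra N 2 S))} ∪
       {x | ∃ (t : ↥(heckeAlgebra N 2 S)) (c : 𝒪), residue 𝒪 c = θ t ∧ P t c ∧
          x = (1 : 𝒪) ⊗ₜ[ℤ] t - c ⊗ₜ[ℤ] (1 : ↥(heckeAlgebra N 2 S))}) := by
  set I₀ : Ideal (𝒪 ⊗[ℤ] ↥(heckeAlgebra N 2 S)) := Ideal.span
      ({x | ∃ a ∈ maximalIdeal 𝒪, x = a ⊗ₜ[ℤ] (1 : ↥(heckeAlgebra N 2 S))} ∪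
       {x | ∃ (t : ↥(heckeAlgebra N 2 S)) (c : 𝒪), residue 𝒪 c = θ t ∧ P t c ∧
          x = (1 : 𝒪) ⊗ₜ[ℤ] t - c ⊗ₜ[ℤ] (1 : ↥(heckeAlgebra N 2 S))}) with hI₀
  -- Step 0: `I₀ ≤ 𝔫`
  have h0 : I₀ ≤ heckeCharKernel N S 𝒪 θ := by
    refine Ideal.span_le.mpr ?_
    rintro x (⟨a, ha, rfl⟩ | ⟨t, c, hc, -, rfl⟩)
    · change a ⊗ₜ[ℤ] (1 : ↥(heckeAlgebra N 2 S)) ∈ heckeCharKernel N S 𝒪 θ
      rw [mem_heckeCharKernel_iff, residualCharacter_tmul, map_one, mul_one,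
        IsLocalRing.residue_eq_zero_iff]
      exact ha
    · change (1 : 𝒪) ⊗ₜ[ℤ] t - c ⊗ₜ[ℤ] (1 : ↥(heckeAlgebra N 2 S)) ∈ heckeCharKernel N S 𝒪 θ
      rw [mem_heckeCharKernel_iff, map_sub, residualCharacter_tmul, residualCharacter_tmul,
        map_one, map_one, one_mul, mul_one, hc, sub_self]
  -- Step 1: every `1 ⊗ t` is congruent to a constant modulo `I₀`
  have h1 : ∀ (x : Module.End ℂ (CuspForm (CongruenceSubgroup.Gamma0 N) 2))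
      (hx : x ∈ Algebra.adjoin ℤ (heckeGenerators N 2 S)),
      ∃ c : 𝒪, (1 : 𝒪) ⊗ₜ[ℤ] (⟨x, hx⟩ : ↥(heckeAlgebra N 2 S)) -
        c ⊗ₜ[ℤ] (1 : ↥(heckeAlgebra N 2 S)) ∈ I₀ := by
    intro x hx
    induction hx using Algebra.adjoin_induction with
    | mem x hx =>
      obtain ⟨c, hc, hPc⟩ := hP ⟨x, Algebra.subset_adjoin hx⟩ hx
      exact ⟨c, Ideal.subset_span (Or.inr ⟨_, c, hc, hPc, rfl⟩)⟩
    | algebraMap r =>
      refine ⟨(r : 𝒪), ?_⟩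
      have h : (1 : 𝒪) ⊗ₜ[ℤ] (⟨algebraMap ℤ _ r, Subalgebra.algebraMap_mem _ r⟩ :
          ↥(heckeAlgebra N 2 S)) = (r : 𝒪) ⊗ₜ[ℤ] (1 : ↥(heckeAlgebra N 2 S)) := by
        have e1 : (⟨algebraMap ℤ _ r, Subalgebra.algebraMap_mem _ r⟩ : ↥(heckeAlgebra N 2 S)) =
            r • (1 : ↥(heckeAlgebra N 2 S)) := by
          apply Subtype.ext
          change algebraMap ℤ (Module.End ℂ (CuspForm (CongruenceSubgroup.Gamma0 N) 2)) r =
            r • (1 : Module.End ℂ (CuspForm (CongruenceSubgroup.Gamma0 N) 2))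
          exact Algebra.algebraMap_eq_smul_one r
        have e2 : ((r : 𝒪)) = r • (1 : 𝒪) := by simp
        rw [e1, e2, TensorProduct.tmul_smul, TensorProduct.smul_tmul']
      rw [h, sub_self]
      exact Ideal.zero_mem _
    | add x y hx hy ihx ihy =>
      obtain ⟨c, hc⟩ := ihx
      obtain ⟨d, hd⟩ := ihy
      refine ⟨c + d, ?_⟩
      have h : (1 : 𝒪) ⊗ₜ[ℤ] (⟨x + y, Subalgebra.add_mem _ hx hy⟩ : ↥(heckeAlgebra N 2 S)) -
          (c + d) ⊗ₜ[ℤ] (1 : ↥(heckeAlgebra N 2 S)) =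
          ((1 : 𝒪) ⊗ₜ[ℤ] (⟨x, hx⟩ : ↥(heckeAlgebra N 2 S)) -
            c ⊗ₜ[ℤ] (1 : ↥(heckeAlgebra N 2 S))) +
          ((1 : 𝒪) ⊗ₜ[ℤ] (⟨y, hy⟩ : ↥(heckeAlgebra N 2 S)) -
            d ⊗ₜ[ℤ] (1 : ↥(heckeAlgebra N 2 S))) := by
        have e1 : (⟨x + y, Subalgebra.add_mem _ hx hy⟩ : ↥(heckeAlgebra N 2 S)) =
            (⟨x, hx⟩ : ↥(heckeAlgebra N 2 S)) + ⟨y, hy⟩ := rfl
        rw [e1, TensorProduct.tmul_add, TensorProduct.add_tmul]
        abel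
      rw [h]
      exact Ideal.add_mem _ hc hd
    | mul x y hx hy ihx ihy =>
      obtain ⟨c, hc⟩ := ihx
      obtain ⟨d, hd⟩ := ihy
      refine ⟨c * d, ?_⟩
      have h : (1 : 𝒪) ⊗ₜ[ℤ] (⟨x * y, Subalgebra.mul_mem _ hx hy⟩ : ↥(heckeAlgebra N 2 S)) -
          (c * d) ⊗ₜ[ℤ] (1 : ↥(heckeAlgebra N 2 S)) =
          ((1 : 𝒪) ⊗ₜ[ℤ] (⟨x, hx⟩ : ↥(heckeAlgebra N 2 S)) -
            c ⊗ₜ[ℤ] (1 : ↥(heckeAlgebra N 2 S))) *
            ((1 : 𝒪) ⊗ₜ[ℤ] (⟨y, hy⟩ : ↥(heckeAlgebra N 2 S))) +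
          (c ⊗ₜ[ℤ] (1 : ↥(heckeAlgebra N 2 S))) *
          ((1 : 𝒪) ⊗ₜ[ℤ] (⟨y, hy⟩ : ↥(heckeAlgebra N 2 S)) -
            d ⊗ₜ[ℤ] (1 : ↥(heckeAlgebra N 2 S))) := by
        have e1 : (⟨x * y, Subalgebra.mul_mem _ hx hy⟩ : ↥(heckeAlgebra N 2 S)) =
            (⟨x, hx⟩ : ↥(heckeAlgebra N 2 S)) * ⟨y, hy⟩ := rfl
        rw [e1, sub_mul, mul_sub]
        simp only [Algebra.TensorProduct.tmul_mul_tmul, one_mul, mul_one]
        abel
      rw [h]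
      exact Ideal.add_mem _ (Ideal.mul_mem_right _ _ hc) (Ideal.mul_mem_left _ _ hd)
  -- Step 2: every `x` is congruent to a constant modulo `I₀`
  have h2 : ∀ x : 𝒪 ⊗[ℤ] ↥(heckeAlgebra N 2 S),
      ∃ c : 𝒪, x - c ⊗ₜ[ℤ] (1 : ↥(heckeAlgebra N 2 S)) ∈ I₀ := by
    intro x
    induction x using TensorProduct.induction_on with
    | zero => exact ⟨0, by rw [TensorProduct.zero_tmul, sub_zero]; exact Ideal.zero_mem _⟩
    | tmul a t =>
      obtain ⟨c, hc⟩ := h1 t.1 t.2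
      refine ⟨a * c, ?_⟩
      have h : a ⊗ₜ[ℤ] t - (a * c) ⊗ₜ[ℤ] (1 : ↥(heckeAlgebra N 2 S)) =
          (a ⊗ₜ[ℤ] (1 : ↥(heckeAlgebra N 2 S))) *
            ((1 : 𝒪) ⊗ₜ[ℤ] (⟨t.1, t.2⟩ : ↥(heckeAlgebra N 2 S)) -
              c ⊗ₜ[ℤ] (1 : ↥(heckeAlgebra N 2 S))) := by
        rw [mul_sub]
        simp only [Algebra.TensorProduct.tmul_mul_tmul, one_mul, mul_one]
      rw [h]
      exact Ideal.mul_mem_left _ _ hc
    | add x y hx hy =>
      obtain ⟨c, hc⟩ := hx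
      obtain ⟨d, hd⟩ := hy
      refine ⟨c + d, ?_⟩
      have h : x + y - (c + d) ⊗ₜ[ℤ] (1 : ↥(heckeAlgebra N 2 S)) =
          (x - c ⊗ₜ[ℤ] (1 : ↥(heckeAlgebra N 2 S))) +
            (y - d ⊗ₜ[ℤ] (1 : ↥(heckeAlgebra N 2 S))) := by
        rw [TensorProduct.add_tmul]
        abel
      rw [h]
      exact Ideal.add_mem _ hc hd
  -- Step 3
  intro x hx
  obtain ⟨c, hc⟩ := h2 x
  have h3 : c ⊗ₜ[ℤ] (1 : ↥(heckeAlgebra N 2 S)) ∈ heckeCharKernel N S 𝒪 θ := by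
    have := Ideal.sub_mem _ hx (h0 hc)
    rwa [sub_sub_cancel] at this
  have h4 : c ∈ maximalIdeal 𝒪 := by
    rw [mem_heckeCharKernel_iff, residualCharacter_tmul, map_one, mul_one,
      IsLocalRing.residue_eq_zero_iff] at h3
    exact h3
  have h5 : c ⊗ₜ[ℤ] (1 : ↥(heckeAlgebra N 2 S)) ∈ I₀ :=
    Ideal.subset_span (Or.inl ⟨c, h4, rfl⟩)
  have := Ideal.add_mem _ hc h5
  rwa [sub_add_cancel] at this

end Span

/-! ## The nilpotent form -/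

section Nilp

/-- The hypothesis of LOC-ACT: every generator `t` of `𝕋` has a lift `c ∈ 𝒪` of `θ t` such that
`(f t - c)^m M ⊆ 𝔪_𝒪 M` for some `m`. -/
def IsNilpAct (f : heckeAlgebra N 2 S →+* Module.End 𝒪 M) : Prop :=
  ∀ t : ↥(heckeAlgebra N 2 S),
    (t : Module.End ℂ (CuspForm (CongruenceSubgroup.Gamma0 N) 2)) ∈ heckeGenerators N 2 S →
    ∃ c : 𝒪, residue 𝒪 c = θ t ∧ ∃ m : ℕ, ∀ y : M,
      ((f t - algebraMap 𝒪 (Module.End 𝒪 M) c) ^ m) y ∈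
        (maximalIdeal 𝒪 • ⊤ : Submodule 𝒪 M)

/-- The ideal of the `x ∈ 𝒪 ⊗ 𝕋` which map `M` into `𝔪_𝒪 M`. -/
def actIdeal (f : heckeAlgebra N 2 S →+* Module.End 𝒪 M) :
    Ideal (𝒪 ⊗[ℤ] ↥(heckeAlgebra N 2 S)) where
  carrier := {x | ∀ y : M, tensorAct N S 𝒪 f x y ∈ (maximalIdeal 𝒪 • ⊤ : Submodule 𝒪 M)}
  add_mem' := fun {x x'} hx hx' y => by
    rw [map_add, LinearMap.add_apply]
    exact Submodule.add_mem _ (hx y) (hx' y)
  zero_mem' := fun y => by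
    rw [map_zero, LinearMap.zero_apply]
    exact Submodule.zero_mem _
  smul_mem' := fun r x hx y => by
    rw [smul_eq_mul, mul_comm, map_mul, Module.End.mul_apply]
    exact hx _

theorem mem_actIdeal (f : heckeAlgebra N 2 S →+* Module.End 𝒪 M)
    (x : 𝒪 ⊗[ℤ] ↥(heckeAlgebra N 2 S)) :
    x ∈ actIdeal N S 𝒪 f ↔
      ∀ y : M, tensorAct N S 𝒪 f x y ∈ (maximalIdeal 𝒪 • ⊤ : Submodule 𝒪 M) := Iff.rfl

/-- The maximal ideal of `θ` acts nilpotently on `M / 𝔪_𝒪 M`. -/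
theorem heckeCharKernel_le_radical (f : heckeAlgebra N 2 S →+* Module.End 𝒪 M)
    (hnil : IsNilpAct N S 𝒪 θ f) :
    heckeCharKernel N S 𝒪 θ ≤ (actIdeal N S 𝒪 f).radical := by
  refine (heckeCharKernel_le_span N S 𝒪 θ
    (fun t c => ∃ m : ℕ, ∀ y : M, ((f t - algebraMap 𝒪 (Module.End 𝒪 M) c) ^ m) y ∈
        (maximalIdeal 𝒪 • ⊤ : Submodule 𝒪 M)) hnil).trans (Ideal.span_le.mpr ?_)
  rintro x (⟨a, ha, rfl⟩ | ⟨t, c, -, ⟨m, hm⟩, rfl⟩)
  · refine Ideal.le_radical ?_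
    intro y
    rw [tensorAct_tmul, LinearMap.smul_apply]
    exact Submodule.smul_mem_smul ha Submodule.mem_top
  · refine ⟨m, ?_⟩
    intro y
    have h : tensorAct N S 𝒪 f (((1 : 𝒪) ⊗ₜ[ℤ] t - c ⊗ₜ[ℤ] (1 : ↥(heckeAlgebra N 2 S))) ^ m) =
        (f t - algebraMap 𝒪 (Module.End 𝒪 M) c) ^ m := by
      rw [map_pow, map_sub, tensorAct_tmul, tensorAct_tmul, one_smul, map_one,
        Algebra.algebraMap_eq_smul_one]
    rw [h]
    exact hm y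

variable [Module.Finite 𝒪 M]

/-- **LOC-UNIT.**  Every element outside the maximal ideal of `θ` acts bijectively on `M`. -/
theorem bijective_tensorAct (f : heckeAlgebra N 2 S →+* Module.End 𝒪 M)
    (hnil : IsNilpAct N S 𝒪 θ f) (s : 𝒪 ⊗[ℤ] ↥(heckeAlgebra N 2 S))
    (hs : s ∉ heckeCharKernel N S 𝒪 θ) :
    Function.Bijective (tensorAct N S 𝒪 f s) := by
  obtain ⟨r, i, hi, hri⟩ := (heckeCharKernel.instIsMaximal N S 𝒪 θ).exists_inv hs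
  obtain ⟨m, hm⟩ := heckeCharKernel_le_radical N S 𝒪 θ f hnil hi
  -- `i ^ m = 1 - s * q`
  obtain ⟨q, hq⟩ : (1 - i) ∣ 1 ^ m - i ^ m := sub_dvd_pow_sub_pow 1 i m
  have h1i : 1 - i = r * s := by rw [← hri]; ring
  have hone : (1 : 𝒪 ⊗[ℤ] ↥(heckeAlgebra N 2 S)) = s * (r * q) + i ^ m := by
    have : (1 : 𝒪 ⊗[ℤ] ↥(heckeAlgebra N 2 S)) = (1 ^ m - i ^ m) + i ^ m := by ring
    rw [this, hq, h1i]
    ring
  have hsurj : Function.Surjective (tensorAct N S 𝒪 f s) := by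
    have hle : (⊤ : Submodule 𝒪 M) ≤
        LinearMap.range (tensorAct N S 𝒪 f s) ⊔ maximalIdeal 𝒪 • (⊤ : Submodule 𝒪 M) := by
      intro y _
      have hy : y = tensorAct N S 𝒪 f s (tensorAct N S 𝒪 f (r * q) y) +
          tensorAct N S 𝒪 f (i ^ m) y := by
        have := congrArg (fun z => tensorAct N S 𝒪 f z y) hone
        simp only [map_one, Module.End.one_apply, map_add, map_mul, LinearMap.add_apply,
          Module.End.mul_apply] at this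
        simpa using this
      rw [hy]
      exact Submodule.add_mem_sup (LinearMap.mem_range_self _ _) (hm y)
    have htop : (⊤ : Submodule 𝒪 M) ≤ LinearMap.range (tensorAct N S 𝒪 f s) :=
      Submodule.le_of_le_smul_of_le_jacobson_bot Module.Finite.fg_top
        (IsLocalRing.maximalIdeal_le_jacobson ⊥) hle
    exact LinearMap.range_eq_top.mp (top_le_iff.mp htop)
  exact OrzechProperty.bijective_of_surjective_endomorphism _ hsurj

variable [Fact (HasIntegralStructure N 2)]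

/-- **LOC-ACT, nilpotent form.**  Let `M` be a finite `𝒪`-module with an action `f` of the Hecke
ring `𝕋 = heckeAlgebra N 2 S` such that every generator `t` of `𝕋` satisfies
`(f t - c)^m M ⊆ 𝔪_𝒪 M` for a lift `c` of `θ t`.  Then the action extends to the local Hecke ring
`T = heckeLocal N S 𝒪 θ`: there is an `𝒪`-algebra map `a : T → End_𝒪(M)` with `a (π t) = f t`. -/
theorem exists_algHom_of_nilp (f : heckeAlgebra N 2 S →+* Module.End 𝒪 M)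
    (hnil : IsNilpAct N S 𝒪 θ f) :
    ∃ a : heckeLocal N S 𝒪 θ →ₐ[𝒪] Module.End 𝒪 M,
      (∀ x, a (toLocal N S 𝒪 θ x) = tensorAct N S 𝒪 f x) ∧
      ∀ t, a (heckeLocal.π N S 𝒪 θ t) = f t :=
  exists_algHom_of_injective N S 𝒪 θ f
    (fun s hs => (bijective_tensorAct N S 𝒪 θ f hnil s hs).1)

/-- `IsNilpAct` when all the primes dividing the level are in `S` (no `U_q` among the
generators): it is enough to treat the `T_ℓ`. -/
theorem isNilpAct_of_T (f : heckeAlgebra N 2 S →+* Module.End 𝒪 M)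
    (hNS : ∀ q : ℕ, q.Prime → q ∣ N → q ∈ S)
    (hT : ∀ (ℓ : ℕ) (hℓ : ℓ.Prime) (hℓN : ¬ ℓ ∣ N) (hℓS : ℓ ∉ S),
      ∃ c : 𝒪, residue 𝒪 c = θ (heckeAlgebra.T hℓ hℓN hℓS) ∧ ∃ m : ℕ, ∀ y : M,
        ((f (heckeAlgebra.T hℓ hℓN hℓS) - algebraMap 𝒪 (Module.End 𝒪 M) c) ^ m) y ∈
          (maximalIdeal 𝒪 • ⊤ : Submodule 𝒪 M)) :
    IsNilpAct N S 𝒪 θ f := by
  rintro t (⟨ℓ, hℓ, hℓN, hℓS, ht⟩ | ⟨q, hqN, hq, hqS, -⟩)
  · have e : t = heckeAlgebra.T hℓ hℓN hℓS := Subtype.ext ht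
    rw [e]
    exact hT ℓ hℓ hℓN hℓS
  · exact absurd (hNS q hq hqN) hqS

/-- **LOC-ACT, `T_ℓ` form.** -/
theorem exists_algHom_of_nilp_T (f : heckeAlgebra N 2 S →+* Module.End 𝒪 M)
    (hNS : ∀ q : ℕ, q.Prime → q ∣ N → q ∈ S)
    (hT : ∀ (ℓ : ℕ) (hℓ : ℓ.Prime) (hℓN : ¬ ℓ ∣ N) (hℓS : ℓ ∉ S),
      ∃ c : 𝒪, residue 𝒪 c = θ (heckeAlgebra.T hℓ hℓN hℓS) ∧ ∃ m : ℕ, ∀ y : M,
        ((f (heckeAlgebra.T hℓ hℓN hℓS) - algebraMap 𝒪 (Module.End 𝒪 M) c) ^ m) y ∈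
          (maximalIdeal 𝒪 • ⊤ : Submodule 𝒪 M)) :
    ∃ a : heckeLocal N S 𝒪 θ →ₐ[𝒪] Module.End 𝒪 M,
      ∀ t, a (heckeLocal.π N S 𝒪 θ t) = f t := by
  obtain ⟨a, -, ha⟩ := exists_algHom_of_nilp N S 𝒪 θ f (isNilpAct_of_T N S 𝒪 θ f hNS hT)
  exact ⟨a, ha⟩

end Nilp

/-! ## From a direct summand `V = e X` of an ambient module -/

section Summand

variable {𝒪' : Type*} [CommRing 𝒪'] {X : Type*} [AddCommGroup X] [Module 𝒪' X]

/-- If `V` is the image of a projector of `X`, then `V ∩ I X = I V`. -/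
theorem mem_smul_top_of_coe_mem (I : Ideal 𝒪') (V : Submodule 𝒪' X) (e : X →ₗ[𝒪'] X)
    (he_mem : ∀ x, e x ∈ V) (he_id : ∀ x ∈ V, e x = x) (z : V)
    (hz : (z : X) ∈ (I • ⊤ : Submodule 𝒪' X)) : z ∈ (I • ⊤ : Submodule 𝒪' V) := by
  have h1 : (I • ⊤ : Submodule 𝒪' X).map (e.codRestrict V he_mem) ≤ (I • ⊤ : Submodule 𝒪' V) := by
    rw [Submodule.map_smul'']
    exact Submodule.smul_mono le_rfl le_top
  have h2 : e.codRestrict V he_mem (z : X) = z := Subtype.ext (he_id _ z.2)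
  rw [← h2]
  exact h1 (Submodule.mem_map_of_mem hz)

/-- Translation of the nilpotency condition of a localisation `V = e X ⊆ X` (stated with iterates
of the operator `y ↦ τ y - c y` of the ambient module and with `𝔪 X`) into the hypothesis of
`exists_algHom_of_nilp` (powers in `End(V)` and `𝔪 V`). -/
theorem pow_apply_mem_of_iterate (I : Ideal 𝒪') (V : Submodule 𝒪' X) (e : X →ₗ[𝒪'] X)
    (he_mem : ∀ x, e x ∈ V) (he_id : ∀ x ∈ V, e x = x)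
    (φ : Module.End 𝒪' V) (τ : X → X) (c : 𝒪') (hφ : ∀ v : V, ((φ v : V) : X) = τ v) (m : ℕ)
    (hm : ∀ x ∈ V, (fun y => τ y - c • y)^[m] x ∈ (I • ⊤ : Submodule 𝒪' X)) (v : V) :
    ((φ - algebraMap 𝒪' (Module.End 𝒪' V) c) ^ m) v ∈ (I • ⊤ : Submodule 𝒪' V) := by
  have key : ∀ (k : ℕ) (w : V),
      ((((φ - algebraMap 𝒪' (Module.End 𝒪' V) c) ^ k) w : V) : X) =
        (fun y => τ y - c • y)^[k] w := by
    intro k
    induction k with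
    | zero => intro w; rfl
    | succ k ih =>
      intro w
      rw [pow_succ, Module.End.mul_apply, ih, Function.iterate_succ_apply]
      congr 1
      rw [LinearMap.sub_apply, Submodule.coe_sub, hφ, Module.algebraMap_end_apply,
        Submodule.coe_smul]
  refine mem_smul_top_of_coe_mem I V e he_mem he_id _ ?_
  rw [key]
  exact hm v v.2

end Summand

end Fermat.Agent.S59.TW.H24
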