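import Fermat.Agent.S59.H585.Perf
import Fermat.Agent.S59.H585.EtaInd

/-!
# Row S59, cell TW, leaf BRIDGE — part 1: the Manin pairing over a domain of characteristic `0`
is perfect (helper24)

For `Γ ≤ SL₂(ℤ)` of finite index containing `-1` and a domain `R` of characteristic `0`:

* `pairR` : the Manin pairing as an `R`-bilinear form on the cuspidal classes `cuspSub R Γ R`;
* `exists_pairing_eq_functional` : every `R`-linear functional on the cuspidal classes is
  `m ↦ ⟨m, y⟩` for a cuspidal class `y` (from the integral Poincaré duality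
  `H585.intPairing_flip_bijective` and `H585.exists_lincomb`);
* `eq_zero_of_pairing_eq_zero` (over a DVR): the pairing is non-degenerate.
-/

set_option autoImplicit false

open CongruenceSubgroup IsLocalRing
open scoped MatrixGroups

namespace Fermat.Agent.S59.TW.H24

open Fermat.Agent.S41.Spec Fermat.Agent.S59.NM ModularCurve.Period Fermat.Agent.S59.H585

section PerfO

variable {Γ : Subgroup SL(2, ℤ)} [Γ.FiniteIndex] {R : Type} [CommRing R]

/-- The Manin pairing as a bilinear form on the cuspidal classes with coefficients in `R`. -/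
noncomputable def pairR (hneg : (-1 : SL(2, ℤ)) ∈ Γ) :
    cuspSub R Γ R →ₗ[R] cuspSub R Γ R →ₗ[R] R :=
  LinearMap.mk₂ R (fun x y => maninPairing Γ (x : Additive Γ →+ R) (y : Additive Γ →+ R))
    (fun x x' y => maninPairing_add_left hneg x.2 x'.2 y.2)
    (fun c x y => maninPairing_smul_left hneg c x.2 y.2)
    (fun x y y' => maninPairing_add_right hneg x.2 y.2 y'.2)
    (fun c x y => maninPairing_smul_right hneg c x.2 y.2)

@[simp] theorem pairR_apply (hneg : (-1 : SL(2, ℤ)) ∈ Γ) (x y : cuspSub R Γ R) :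
    pairR hneg x y = maninPairing Γ (x : Additive Γ →+ R) (y : Additive Γ →+ R) := rfl

omit [Γ.FiniteIndex] in
/-- The base change `C_Γ(ℤ) → C_Γ(R)`. -/
noncomputable def castC (R : Type) [CommRing R] (Γ : Subgroup SL(2, ℤ)) :
    cuspSub ℤ Γ ℤ →ₗ[ℤ] cuspSub R Γ R where
  toFun x := ⟨(Int.castRingHom R).toAddMonoidHom.comp (x : Additive Γ →+ ℤ),
    isCuspidalOn_comp _ x.2⟩
  map_add' x y := by
    apply Subtype.ext
    ext g
    simp
  map_smul' c x := by
    apply Subtype.ext
    ext g
    simp

omit [Γ.FiniteIndex] in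
theorem castC_apply (x : cuspSub ℤ Γ ℤ) (g : Additive Γ) :
    ((castC R Γ x : cuspSub R Γ R) : Additive Γ →+ R) g =
      (((x : Additive Γ →+ ℤ) g : ℤ) : R) := rfl

theorem pairR_castC (hneg : (-1 : SL(2, ℤ)) ∈ Γ) (x y : cuspSub ℤ Γ ℤ) :
    pairR hneg (castC R Γ x) (castC R Γ y) = ((intPairing hneg x y : ℤ) : R) :=
  maninPairing_map hneg (Int.castRingHom R) x.2 y.2

variable [IsDomain R] [CharZero R]

/-- The cuspidal classes over `R` are spanned by the integral cuspidal classes. -/
theorem span_castC_eq_top {ι : Type} (β : Module.Basis ι ℤ (cuspSub ℤ Γ ℤ)) :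
    Submodule.span R (Set.range fun i => castC R Γ (β i)) = ⊤ := by
  classical
  rw [eq_top_iff]
  rintro ⟨m, hm⟩ -
  obtain ⟨κ, _, v, z, hz, hmz⟩ := exists_lincomb (R := R) hm
  have hm' : (⟨m, hm⟩ : cuspSub R Γ R) = ∑ k, v k • castC R Γ ⟨z k, hz k⟩ := by
    refine Subtype.ext (AddMonoidHom.ext fun g => ?_)
    rw [Submodule.coe_sum, AddMonoidHom.finset_sum_apply]
    show m g = _
    rw [hmz g]
    rfl
  rw [hm']
  refine Submodule.sum_mem _ fun k _ => Submodule.smul_mem _ _ ?_
  -- an integral class is a `ℤ`-combination of the basis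
  have h1 : (⟨z k, hz k⟩ : cuspSub ℤ Γ ℤ) ∈
      Submodule.span ℤ (Set.range β) := by
    rw [β.span_eq]
    exact Submodule.mem_top
  have h2 : ∀ x ∈ Submodule.span ℤ (Set.range β),
      castC R Γ x ∈ Submodule.span R (Set.range fun i => castC R Γ (β i)) := by
    intro x hx
    induction hx using Submodule.span_induction with
    | mem x hx =>
      obtain ⟨i, rfl⟩ := hx
      exact Submodule.subset_span ⟨i, rfl⟩
    | zero => rw [map_zero]; exact Submodule.zero_mem _
    | add x y _ _ hx hy => rw [map_add]; exact Submodule.add_mem _ hx hy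
    | smul c x _ hx =>
      rw [map_smul]
      have : c • castC R Γ x = (c : R) • castC R Γ x :=
        (Int.cast_smul_eq_zsmul R c _).symm
      rw [this]
      exact Submodule.smul_mem _ _ hx
  exact h2 _ h1

/-- **The Manin pairing over `R` is perfect**: every functional on the cuspidal classes is the
pairing with a cuspidal class. -/
theorem exists_pairing_eq_functional (hneg : (-1 : SL(2, ℤ)) ∈ Γ)
    (F : cuspSub R Γ R →ₗ[R] R) :
    ∃ y : cuspSub R Γ R, ∀ m : cuspSub R Γ R, pairR hneg m y = F m := by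
  classical
  set β := Module.Free.chooseBasis ℤ (cuspSub ℤ Γ ℤ) with hβ
  haveI : Fintype (Module.Free.ChooseBasisIndex ℤ (cuspSub ℤ Γ ℤ)) :=
    Module.Free.ChooseBasisIndex.fintype ℤ _
  -- the dual basis for the pairing
  choose z hz using fun i => (intPairing_flip_bijective hneg).2 (β.coord i)
  have hz' : ∀ i j, intPairing hneg (β j) (z i) = if j = i then 1 else 0 := by
    intro i j
    have := congrArg (fun f : cuspSub ℤ Γ ℤ →ₗ[ℤ] ℤ => f (β j)) (hz i)
    simp only [LinearMap.flip_apply] at this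
    rw [this, Module.Basis.coord_apply, Module.Basis.repr_self, Finsupp.single_apply]
  refine ⟨∑ i, F (castC R Γ (β i)) • castC R Γ (z i), fun m => ?_⟩
  have key : (pairR hneg).flip (∑ i, F (castC R Γ (β i)) • castC R Γ (z i)) = F := by
    refine LinearMap.ext_on (span_castC_eq_top β) ?_
    rintro _ ⟨j, rfl⟩
    show pairR hneg (castC R Γ (β j)) (∑ i, F (castC R Γ (β i)) • castC R Γ (z i)) =
      F (castC R Γ (β j))
    rw [map_sum]
    simp only [map_smul, smul_eq_mul]
    rw [Finset.sum_eq_single j]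
    · rw [pairR_castC, hz', if_pos rfl, Int.cast_one, mul_one]
    · intro i _ hij
      rw [pairR_castC, hz', if_neg (Ne.symm hij), Int.cast_zero, mul_zero]
    · intro h
      exact absurd (Finset.mem_univ j) h
  have := congrArg (fun f : cuspSub R Γ R →ₗ[R] R => f m) key
  simpa using this

end PerfO

section NonDeg

variable {𝒪 : Type} [CommRing 𝒪] [IsDomain 𝒪] [IsDiscreteValuationRing 𝒪] [CharZero 𝒪]

/-- **The Manin pairing over a DVR of characteristic `0` is non-degenerate.** -/
theorem eq_zero_of_pairing_eq_zero {n : ℕ} (hn : n ≠ 0) {z : Additive (Gamma0 n) →+ 𝒪}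
    (hz : IsCuspidal z)
    (h : ∀ m : Additive (Gamma0 n) →+ 𝒪, IsCuspidal m → maninPairing (Gamma0 n) m z = 0) :
    z = 0 := by
  by_contra hz0
  haveI := finiteIndex_Gamma0' hn
  obtain ⟨ϖ, hϖ⟩ := IsDiscreteValuationRing.exists_irreducible 𝒪
  obtain ⟨k, z₀, hzz, hprim⟩ := exists_prim585 hϖ z hz0
  have hz₀ : IsCuspidal z₀ := by
    refine isCuspidalOn_of_zero_imp hz fun g hg => ?_
    have h1 : z g = ϖ ^ k * z₀ g := by rw [hzz]; rfl
    rw [h1] at hg
    rcases mul_eq_zero.mp hg with h2 | h2
    · exact absurd h2 (pow_ne_zero _ hϖ.ne_zero)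
    · exact h2
  obtain ⟨m, hm, hm1⟩ := perf_charZero 𝒪 n hn z₀ hz₀ hprim
  have h3 := h m hm
  rw [maninPairing_skew (neg_one_mem_Gamma0' n) hz hm, neg_eq_zero, hzz,
    maninPairing_smul_left (neg_one_mem_Gamma0' n) _ hz₀ hm, hm1, mul_one] at h3
  exact pow_ne_zero _ hϖ.ne_zero h3

end NonDeg

end Fermat.Agent.S59.TW.H24
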