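import Fermat.Agent.S59.TW.H24.AutPlus
import Fermat.Agent.S59.TW.H24.PerfO
import Fermat.Agent.S59.TW.Aut.H959.Pair
import Fermat.Agent.S59.TW.Aut.H959.CuspMin
import Fermat.Agent.S59.TW.Aut.H581.Nontriv

/-!
# Row S59, cell TW, layer 3 (AUT), leaf BRIDGE of the `Plus` form (helper24)

`bridge_of : Aut.NontrivStatement → Aut.H959.CuspMinStatement → H24.BridgeStatement` and
`bridge_of_cuspMin : Aut.H959.CuspMinStatement → H24.BridgeStatement` (NONTRIV wired):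
for the localisation `V₀` of `X_{Γ₀(N_min)}(𝒪)` at the maximal ideal of the minimal package, with
its action `a₀` of `T_min`: if `V₀` is free over `T_min`, then for the point `pt` of `T_min` defined
by an eigensystem `χ`

    η_{T_min}(pt) = pt (Ann (ker pt)) = δ₀(χ) = NM.cohCong N_min Smin (eig χ).

* `⊇` (`pairing_mem`): helper959's `pairing_mem_congIdeal` (`TW/Aut/H959/Pair.lean`).
* `⊆` (`point_mem_cohCong`): for `c ∈ Ann (ker pt)` and a `T_min`-basis `b` of `V₀`, `x = c b₀` is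
  an eigenclass; the functional `f = pt ∘ (b₀-coordinate)` of `V₀`, extended by the projector `e`
  of `V₀`, is the pairing with a cuspidal class `y` (perfectness of the Manin pairing over `𝒪`,
  `H24.exists_pairing_eq_functional`), which is an eigenclass because the `T_ℓ` are self-adjoint
  and the pairing is non-degenerate; and `⟨x, y⟩ = f (x) = pt (c)`.
-/

set_option autoImplicit false

open Polynomial IsLocalRing CongruenceSubgroup
open scoped MatrixGroups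

namespace Fermat.Agent.S59.TW.H24

open Fermat.Agent.S59.Arch Fermat.Agent.S59.TW.H959 Fermat.Agent.S59.TW.H653
  Fermat.Agent.S59.TW.Aut Fermat.Agent.S59.NM Fermat.Agent.S59.TW.Aut.H959
  Fermat.Agent.S29.H642 Fermat.Agent.S41.Spec Fermat.Agent.S59.H585

section Main

variable {p : ℕ} [hpF : Fact p.Prime]
  {𝒪 : Type} [CommRing 𝒪] [IsDomain 𝒪] [IsDiscreteValuationRing 𝒪]
  [IsAdicComplete (maximalIdeal 𝒪) 𝒪] [CharZero 𝒪]
  {ρbar : ResidualGaloisRep (ResidueField 𝒪)} {t : PType} {Smin : Finset ℕ}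
  [NeZero (wilesLevel p t Smin Smin)]
  (P₀ : HeckePkg p 𝒪 ρbar t Smin Smin)
  (V₀ : Submodule 𝒪 (Additive (Gamma0 (wilesLevel p t Smin Smin)) →+ 𝒪))
  (a₀ : P₀.T →ₐ[𝒪] Module.End 𝒪 V₀)
  (χ : CuspForm.heckeAlgebra (wilesLevel p t Smin Smin) 2 (↑Smin : Set ℕ) →+* 𝒪)
  (pt : P₀.T →ₐ[𝒪] 𝒪)

omit [CharZero 𝒪] in
/-- The eigenvalues of the point `pt` defined by `χ`. -/
theorem eigOf_eq_eig
    (hpt : ∀ x : CuspForm.heckeAlgebra (wilesLevel p t Smin Smin) 2 (↑Smin : Set ℕ),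
      pt (CuspForm.heckeLocal.π (wilesLevel p t Smin Smin) (↑Smin : Set ℕ) 𝒪 P₀.θ x) = χ x)
    {l : ℕ} (hl : l.Prime) (hlN : ¬ l ∣ wilesLevel p t Smin Smin) (hlS : l ∉ Smin) :
    eigOf (wilesLevel p t Smin Smin) (↑Smin : Set ℕ) 𝒪 P₀.θ pt l = eig χ l := by
  have hlS' : l ∉ (↑Smin : Set ℕ) := fun h => hlS (Finset.mem_coe.mp h)
  rw [eigOf_eq _ _ _ _ pt hl hlN hlS', eig_eq χ hl hlN hlS', hpt]

omit [CharZero 𝒪] in
/-- An eigenclass for `eig χ` is an eigenclass for the point `pt`. -/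
theorem isEigen_of_isEigenclass
    (hpt : ∀ x : CuspForm.heckeAlgebra (wilesLevel p t Smin Smin) 2 (↑Smin : Set ℕ),
      pt (CuspForm.heckeLocal.π (wilesLevel p t Smin Smin) (↑Smin : Set ℕ) 𝒪 P₀.θ x) = χ x)
    {x : Additive (Gamma0 (wilesLevel p t Smin Smin)) →+ 𝒪}
    (hx : NM.IsEigenclass (wilesLevel p t Smin Smin) Smin (eig χ) x) :
    IsEigen P₀ pt x := by
  intro l hlF hl hlS
  rw [hx.2 l hl hlS, eigOf_eq_eig P₀ χ pt hpt hlF.out hl hlS]

include hpF in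
omit [CharZero 𝒪] in
/-- **`⊇`**: the pairing of two `χ`-eigenclasses lies in the congruence ideal of `pt`. -/
theorem pairing_mem (h : ResidualHyp p 𝒪 ρbar Smin) (hV₀ : IsMinPart P₀ V₀)
    (ha₀ : IsMinAction P₀ V₀ a₀) (hcusp : ∀ v ∈ V₀, IsCuspidal v)
    (hpt : ∀ x : CuspForm.heckeAlgebra (wilesLevel p t Smin Smin) 2 (↑Smin : Set ℕ),
      pt (CuspForm.heckeLocal.π (wilesLevel p t Smin Smin) (↑Smin : Set ℕ) 𝒪 P₀.θ x) = χ x)
    {d : ℕ} (b : Fin d → ModOf V₀ a₀)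
    (hb : Function.Bijective (Fintype.linearCombination P₀.T b)) :
    cohCong (wilesLevel p t Smin Smin) Smin (eig χ) ≤ NC.congIdeal pt := by
  refine Ideal.span_le.mpr ?_
  rintro c ⟨x, y, hx, hy, rfl⟩
  exact pairing_mem_congIdeal P₀ V₀ a₀ h hV₀ ha₀ hcusp b hb pt hx.1
    (isEigen_of_isEigenclass P₀ χ pt hpt hx) (isEigen_of_isEigenclass P₀ χ pt hpt hy)

/-! ## The coordinate functional -/

section Coord

omit [CharZero 𝒪]

variable {P₀ V₀ a₀}

/-- `ModOf.mk` is additive. -/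
theorem modOf_mk_add (v w : V₀) :
    ModOf.mk V₀ a₀ (v + w) = ModOf.mk V₀ a₀ v + ModOf.mk V₀ a₀ w := rfl

/-- `ModOf.mk` and the scalars of `𝒪`. -/
theorem modOf_mk_smul (r : 𝒪) (v : V₀) :
    ModOf.mk V₀ a₀ (r • v) = algebraMap 𝒪 P₀.T r • ModOf.mk V₀ a₀ v := by
  apply ModOf.val_injective
  rw [ModOf.val_algebraMap_smul, ModOf.val_mk, ModOf.val_mk]

/-- `ModOf.mk` and the action of `T_min`. -/
theorem modOf_mk_act (s : P₀.T) (v : V₀) :
    ModOf.mk V₀ a₀ (a₀ s v) = s • ModOf.mk V₀ a₀ v := by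
  apply ModOf.val_injective
  rw [ModOf.val_smul, ModOf.val_mk, ModOf.val_mk]

/-- The functional `pt ∘ (i-th coordinate)` of `V₀`, for a `T_min`-basis `b` of `V₀`. -/
noncomputable def coordFun {d : ℕ} (b : Fin d → ModOf V₀ a₀)
    (hb : Function.Bijective (Fintype.linearCombination P₀.T b)) (pt : P₀.T →ₐ[𝒪] 𝒪)
    (i : Fin d) : V₀ →ₗ[𝒪] 𝒪 where
  toFun v := pt ((LinearEquiv.ofBijective (Fintype.linearCombination P₀.T b) hb).symm
    (ModOf.mk V₀ a₀ v) i)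
  map_add' v w := by
    rw [modOf_mk_add, map_add, Pi.add_apply, map_add]
  map_smul' r v := by
    rw [modOf_mk_smul, map_smul, Pi.smul_apply, smul_eq_mul, map_mul, AlgHom.commutes]
    rfl

theorem coordFun_act {d : ℕ} (b : Fin d → ModOf V₀ a₀)
    (hb : Function.Bijective (Fintype.linearCombination P₀.T b)) (pt : P₀.T →ₐ[𝒪] 𝒪)
    (i : Fin d) (s : P₀.T) (v : V₀) :
    coordFun b hb pt i (a₀ s v) = pt s * coordFun b hb pt i v := by
  show pt ((LinearEquiv.ofBijective (Fintype.linearCombination P₀.T b) hb).symm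
    (ModOf.mk V₀ a₀ (a₀ s v)) i) = pt s * pt ((LinearEquiv.ofBijective
      (Fintype.linearCombination P₀.T b) hb).symm (ModOf.mk V₀ a₀ v) i)
  rw [modOf_mk_act, map_smul, Pi.smul_apply, smul_eq_mul, map_mul]

theorem coordFun_basis {d : ℕ} (b : Fin d → ModOf V₀ a₀)
    (hb : Function.Bijective (Fintype.linearCombination P₀.T b)) (pt : P₀.T →ₐ[𝒪] 𝒪)
    (i : Fin d) (c : P₀.T) :
    coordFun b hb pt i (ModOf.val V₀ a₀ (c • b i)) = pt c := by
  classical
  show pt ((LinearEquiv.ofBijective (Fintype.linearCombination P₀.T b) hb).symm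
    (ModOf.mk V₀ a₀ (ModOf.val V₀ a₀ (c • b i))) i) = pt c
  rw [ModOf.mk_val, map_smul, Pi.smul_apply, smul_eq_mul]
  have h1 : (LinearEquiv.ofBijective (Fintype.linearCombination P₀.T b) hb).symm (b i) =
      Pi.single i 1 := by
    rw [LinearEquiv.symm_apply_eq, LinearEquiv.ofBijective_apply,
      Fintype.linearCombination_apply_single, one_smul]
  rw [h1, Pi.single_eq_same, mul_one]

end Coord

/-! ## `⊆`: the congruence ideal is generated by pairings of eigenclasses -/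

include hpF in
/-- For `c ∈ Ann (ker pt)`, the class `c b_i` is a `χ`-eigenclass. -/
theorem isEigenclass_smul_basis (ha₀ : IsMinAction P₀ V₀ a₀) (hcusp : ∀ v ∈ V₀, IsCuspidal v)
    (hpt : ∀ x : CuspForm.heckeAlgebra (wilesLevel p t Smin Smin) 2 (↑Smin : Set ℕ),
      pt (CuspForm.heckeLocal.π (wilesLevel p t Smin Smin) (↑Smin : Set ℕ) 𝒪 P₀.θ x) = χ x)
    {c : P₀.T} (hc : c ∈ NC.annAug pt) (m : ModOf V₀ a₀) :
    NM.IsEigenclass (wilesLevel p t Smin Smin) Smin (eig χ)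
      ((ModOf.val V₀ a₀ (c • m) : V₀) :
        Additive (Gamma0 (wilesLevel p t Smin Smin)) →+ 𝒪) := by
  refine ⟨hcusp _ (ModOf.val V₀ a₀ (c • m)).2, ?_⟩
  intro l hlF hl hlS
  have hlS' : l ∉ (↑Smin : Set ℕ) := fun h => hlS (Finset.mem_coe.mp h)
  -- `s c = pt (s) c`
  have hsc : ∀ s : P₀.T, s * c = algebraMap 𝒪 P₀.T (pt s) * c := by
    intro s
    have h1 : s - algebraMap 𝒪 P₀.T (pt s) ∈ NC.augIdeal pt := by
      rw [NC.mem_augIdeal, map_sub, AlgHom.commutes]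
      exact sub_self _
    have h2 := (NC.mem_annAug.mp hc) _ h1
    rw [mul_sub, sub_eq_zero] at h2
    rw [mul_comm s c, h2, mul_comm]
  have hact := act_T P₀ V₀ a₀ ha₀ hlF.out hl hlS' (ModOf.val V₀ a₀ (c • m))
  rw [← hact, ← ModOf.val_smul, smul_smul, hsc, ← smul_smul, ModOf.val_algebraMap_smul,
    Submodule.coe_smul, P₀.hπ, hpt, eig_eq χ hlF.out hl hlS']

include hpF in
/-- **`⊆`**: `pt (c)`, `c ∈ Ann (ker pt)`, is the pairing of two `χ`-eigenclasses. -/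
theorem point_mem_cohCong (hV₀ : IsMinPart P₀ V₀)
    (ha₀ : IsMinAction P₀ V₀ a₀) (hcusp : ∀ v ∈ V₀, IsCuspidal v)
    (hpt : ∀ x : CuspForm.heckeAlgebra (wilesLevel p t Smin Smin) 2 (↑Smin : Set ℕ),
      pt (CuspForm.heckeLocal.π (wilesLevel p t Smin Smin) (↑Smin : Set ℕ) 𝒪 P₀.θ x) = χ x)
    {d : ℕ} (hd : 0 < d) (b : Fin d → ModOf V₀ a₀)
    (hb : Function.Bijective (Fintype.linearCombination P₀.T b))
    {c : P₀.T} (hc : c ∈ NC.annAug pt) :
    pt c ∈ cohCong (wilesLevel p t Smin Smin) Smin (eig χ) := by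
  have hN : wilesLevel p t Smin Smin ≠ 0 := NeZero.ne _
  haveI := finiteIndex_Gamma0' hN
  have hneg := neg_one_mem_Gamma0' (wilesLevel p t Smin Smin)
  obtain ⟨e, he1, he2, he3, he4, -, -, -⟩ := hV₀.exists_proj
  set i₀ : Fin d := ⟨0, hd⟩ with hi₀
  -- the eigenclass `x = c b₀`
  set x : V₀ := ModOf.val V₀ a₀ (c • b i₀) with hx
  have hxE := isEigenclass_smul_basis P₀ V₀ a₀ χ pt ha₀ hcusp hpt hc (b i₀)
  -- the functional
  set f : V₀ →ₗ[𝒪] 𝒪 := coordFun b hb pt i₀ with hf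
  set F : cuspSub 𝒪 (Gamma0 (wilesLevel p t Smin Smin)) 𝒪 →ₗ[𝒪] 𝒪 :=
    f ∘ₗ (e.codRestrict V₀ he2) ∘ₗ (cuspSub 𝒪 (Gamma0 (wilesLevel p t Smin Smin)) 𝒪).subtype
    with hF
  obtain ⟨y, hy⟩ := exists_pairing_eq_functional hneg F
  have hyc : IsCuspidal (y : Additive (Gamma0 (wilesLevel p t Smin Smin)) →+ 𝒪) := y.2
  have hyF : ∀ (m : Additive (Gamma0 (wilesLevel p t Smin Smin)) →+ 𝒪) (hm : IsCuspidal m),
      maninPairing (Gamma0 (wilesLevel p t Smin Smin)) m y = f ⟨e m, he2 m⟩ :=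
    fun m hm => hy ⟨m, hm⟩
  -- `y` is an eigenclass
  have hyE : NM.IsEigenclass (wilesLevel p t Smin Smin) Smin (eig χ)
      (y : Additive (Gamma0 (wilesLevel p t Smin Smin)) →+ 𝒪) := by
    refine ⟨hyc, ?_⟩
    intro l hlF hl hlS
    have hlS' : l ∉ (↑Smin : Set ℕ) := fun h => hlS (Finset.mem_coe.mp h)
    have hTy : IsCuspidal (heckeTransfer hl
        (y : Additive (Gamma0 (wilesLevel p t Smin Smin)) →+ 𝒪)) :=
      isCuspidal_heckeTransfer hl hyc
    have hay : IsCuspidal ((-(eig χ l)) •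
        (y : Additive (Gamma0 (wilesLevel p t Smin Smin)) →+ 𝒪)) :=
      (cuspSub 𝒪 (Gamma0 (wilesLevel p t Smin Smin)) 𝒪).smul_mem _ hyc
    have hz : IsCuspidal (heckeTransfer hl
        (y : Additive (Gamma0 (wilesLevel p t Smin Smin)) →+ 𝒪) + (-(eig χ l)) •
        (y : Additive (Gamma0 (wilesLevel p t Smin Smin)) →+ 𝒪)) :=
      (cuspSub 𝒪 (Gamma0 (wilesLevel p t Smin Smin)) 𝒪).add_mem hTy hay
    have hz0 := eq_zero_of_pairing_eq_zero hN hz (fun m hm => by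
      have hTm : IsCuspidal (heckeTransfer hl m) := isCuspidal_heckeTransfer hl hm
      rw [maninPairing_add_right hneg hm hTy hay, maninPairing_smul_right hneg _ hm hyc,
        ← pairing_hecke_dom hl hN m _ hm hyc, hyF _ hTm, hyF _ hm]
      -- `e (T m) = T (e m) = a₀ (T_l) (e m)`
      have h1 : (⟨e (heckeTransfer hl m), he2 _⟩ : V₀) =
          a₀ (P₀.H.π (CuspForm.heckeAlgebra.T hlF.out hl hlS')) ⟨e m, he2 m⟩ := by
        apply Subtype.ext
        rw [act_T P₀ V₀ a₀ ha₀ hlF.out hl hlS' ⟨e m, he2 m⟩]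
        have h2 := he4 l hl m
        rw [TK_Gamma0 hl, TK_Gamma0 hl] at h2
        exact h2
      rw [h1, hf, coordFun_act, P₀.hπ, hpt, eig_eq χ hlF.out hl hlS']
      ring)
    rw [← sub_eq_zero, sub_eq_add_neg, ← neg_smul]
    exact hz0
  -- the value of the pairing
  have hval : maninPairing (Gamma0 (wilesLevel p t Smin Smin))
      (x : Additive (Gamma0 (wilesLevel p t Smin Smin)) →+ 𝒪) y = pt c := by
    rw [hyF _ hxE.1]
    have h1 : (⟨e (x : Additive (Gamma0 (wilesLevel p t Smin Smin)) →+ 𝒪), he2 _⟩ : V₀) = x :=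
      Subtype.ext (he3 _ x.2)
    rw [h1, hf, hx, coordFun_basis]
  rw [← hval]
  exact Ideal.subset_span ⟨_, _, hxE, hyE, rfl⟩

include hpF in
/-- **BRIDGE at `(V₀, a₀)`**: `η_{T_min}(pt) = δ₀(χ)` if `V₀ ≠ 0` is cuspidal and free over
`T_min`. -/
theorem congIdeal_eq_cohCong (h : ResidualHyp p 𝒪 ρbar Smin) (hV₀ : IsMinPart P₀ V₀)
    (ha₀ : IsMinAction P₀ V₀ a₀) (hcusp : ∀ v ∈ V₀, IsCuspidal v) (hnt : Nontrivial V₀)
    (hpt : ∀ x : CuspForm.heckeAlgebra (wilesLevel p t Smin Smin) 2 (↑Smin : Set ℕ),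
      pt (CuspForm.heckeLocal.π (wilesLevel p t Smin Smin) (↑Smin : Set ℕ) 𝒪 P₀.θ x) = χ x)
    (hbasis : ∃ (d : ℕ) (b : Fin d → ModOf V₀ a₀),
      Function.Bijective (Fintype.linearCombination P₀.T b)) :
    NC.congIdeal pt = cohCong (wilesLevel p t Smin Smin) Smin (eig χ) := by
  obtain ⟨d, b, hb⟩ := hbasis
  have hd : 0 < d := by
    rcases Nat.eq_zero_or_pos d with h0 | h0
    · exfalso
      subst h0
      obtain ⟨v, w, hvw⟩ := hnt
      apply hvw
      have key : ∀ u : V₀, u = 0 := by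
        intro u
        obtain ⟨cu, hcu⟩ := hb.2 (ModOf.mk V₀ a₀ u)
        have h1 : cu = 0 := Subsingleton.elim _ _
        rw [h1, map_zero] at hcu
        exact (congrArg (ModOf.val V₀ a₀) hcu).symm
      rw [key v, key w]
    · exact h0
  refine le_antisymm ?_ (pairing_mem P₀ V₀ a₀ χ pt h hV₀ ha₀ hcusp hpt b hb)
  unfold NC.congIdeal
  rw [Ideal.map_le_iff_le_comap]
  intro c hc
  exact point_mem_cohCong P₀ V₀ a₀ χ pt hV₀ ha₀ hcusp hpt hd b hb hc

end Main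

/-- **Leaf BRIDGE of layer 3, `Plus` form**, from NONTRIV (`Aut.NontrivStatement`) and CUSP at the
minimal level (`Aut.H959.CuspMinStatement`). -/
theorem bridge_of (hNon : NontrivStatement) (hCusp : Aut.H959.CuspMinStatement) :
    BridgeStatement := by
  intro p hpF 𝒪 _ _ _ _ _ _ ρbar Smin hh _ t ht hN P₀ χ _ _ pt hpt V₀ hV₀ a₀ ha₀ hbasis
  exact congIdeal_eq_cohCong P₀ V₀ a₀ χ pt hh hV₀ ha₀
    (hCusp p 𝒪 ρbar Smin hh t ht P₀ V₀ hV₀)
    (hNon p 𝒪 ρbar Smin hh t ht P₀ V₀ hV₀) hpt hbasis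

/-- **Leaf BRIDGE, NONTRIV wired** (`Aut.H581.nontriv`): BRIDGE follows from CUSP at the minimal
level. -/
theorem bridge_of_cuspMin (hCusp : Aut.H959.CuspMinStatement) : BridgeStatement :=
  bridge_of Aut.H581.nontriv hCusp

end Fermat.Agent.S59.TW.H24
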