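import Fermat.Agent.S59.TW.H24.Bridge
import Fermat.Agent.S59.TW.H324.CuspMin

/-!
# Row S59, cell TW, layer 3 (AUT), `Plus` form: the leaf BRIDGE is CLOSED (helper24)

`bridge : H24.BridgeStatement`, from `H24.bridge_of_cuspMin` and CUSP at the minimal level
(`TW.H324.cuspMin`, helper324).
-/

set_option autoImplicit false

namespace Fermat.Agent.S59.TW.H24

/-- **Leaf BRIDGE of layer 3, `Plus` form** (unconditional). -/
theorem bridge : BridgeStatement :=
  bridge_of_cuspMin (fun p _ 𝒪 _ _ _ _ _ _ ρbar Smin h t ht _ P₀ V₀ hV₀ =>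
    Fermat.Agent.S59.TW.H324.cuspMin p 𝒪 ρbar Smin h t ht P₀ V₀ hV₀)

end Fermat.Agent.S59.TW.H24
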