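import Fermat.Agent.S59.TW.Aut.Skel
import Fermat.Agent.S59.TW.SpecPlus

/-!
# Row S59, cell TW, layer 3 (AUT), `Plus` form: the glue (helper24)

Layer 2, `Plus` form (`TW/SpecPlus.lean`) consumes `TW.AutPlusStatement` = `TW.AutStatement`
under `CurveCase` with the bridge clause

    M₀ has a finite basis over T_min  ⇒  η_{T_min}(pt) = δ₀(χ) = NM.cohCong N_min Smin (eig χ).

Layer 3 (`TW/Aut/Spec.lean`, helper511) builds `M₀ := ModOf V₀ a₀`, `V₀ ⊆ X_{Γ₀(N_min)}(𝒪)` the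
localisation at the (anemic) maximal ideal of `P₀` (`IsMinPart`), with the action `a₀` of `T_min`
(`IsMinAction`).  Here:

* `BridgeStatement` : the new leaf BRIDGE = the bridge clause for `M₀ = ModOf V₀ a₀`;
* `autPlus_of_leaves : Idem → Mod0 → Nontriv → ModQ → FreeQ → Ctrl → Cmp → Bridge →
    TW.AutPlusStatement`  (same proof as `Aut.aut_of_leaves`, with `M₀` exported).
-/

set_option autoImplicit false

open Polynomial IsLocalRing CongruenceSubgroup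
open scoped MatrixGroups

namespace Fermat.Agent.S59.TW.H24

open Fermat.Agent.S59.Arch Fermat.Agent.S59.TW.H959 Fermat.Agent.S59.TW.H653
  Fermat.Agent.S59.TW.Aut Fermat.Agent.S59.NM

/-- **BRIDGE** (leaf of layer 3, `Plus` form).  For the localisation `V₀` of
`X_{Γ₀(N_min)}(𝒪)` at the maximal ideal of the package `P₀` with its action `a₀` of `T_min`:
if `V₀` has a finite basis over `T_min`, then the congruence ideal of the point `pt` of `T_min`
defined by the eigensystem `χ` is the ideal of the values of the Manin pairing on the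
`χ`-eigenclasses of level `N_min`.
(Manin pairing perfect on the cuspidal classes [`H585.perf_charZero`], `T_ℓ` self-adjoint
[`H585.pairing_hecke_int`], `V₀` cuspidal [CUSP], `V₀[ker pt]` = the `χ`-eigenclasses, and
`NM.BaseStatement` [`H585.base`].) -/
def BridgeStatement : Prop :=
  ∀ (p : ℕ) [Fact p.Prime]
    (𝒪 : Type) [CommRing 𝒪] [IsDomain 𝒪] [IsDiscreteValuationRing 𝒪]
    [IsAdicComplete (maximalIdeal 𝒪) 𝒪] [Finite (ResidueField 𝒪)] [CharZero 𝒪]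
    (ρbar : ResidualGaloisRep (ResidueField 𝒪)) (Smin : Finset ℕ)
    (_h : ResidualHyp p 𝒪 ρbar Smin) (_hc : CurveCase p ρbar) (t : PType)
    (_ht : (t = .flat ∧ (GaloisRepAdic.ofResidualGaloisRep ρbar).IsFlatAt p) ∨
      (t = .sord ∧ (GaloisRepAdic.ofResidualGaloisRep ρbar).IsStrictOrdinaryAt p ∧
        ¬ (GaloisRepAdic.ofResidualGaloisRep ρbar).IsFlatAt p))
    [NeZero (wilesLevel p t Smin Smin)]
    (P₀ : HeckePkg p 𝒪 ρbar t Smin Smin)
    (χ : CuspForm.heckeAlgebra (wilesLevel p t Smin Smin) 2 (↑Smin : Set ℕ) →+* 𝒪)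
    (_hχ : G4.ResFrobCond ρbar ((residue 𝒪).comp χ))
    (_hθ : P₀.θ = (residue 𝒪).comp χ)
    (pt : P₀.T →ₐ[𝒪] 𝒪)
    (_hpt : ∀ x : CuspForm.heckeAlgebra (wilesLevel p t Smin Smin) 2 (↑Smin : Set ℕ),
      pt (CuspForm.heckeLocal.π (wilesLevel p t Smin Smin) (↑Smin : Set ℕ) 𝒪 P₀.θ x) = χ x)
    (V₀ : Submodule 𝒪 (Additive (Gamma0 (wilesLevel p t Smin Smin)) →+ 𝒪))
    (_hV₀ : IsMinPart P₀ V₀)
    (a₀ : P₀.T →ₐ[𝒪] Module.End 𝒪 V₀) (_ha₀ : IsMinAction P₀ V₀ a₀),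
    (∃ (d : ℕ) (b : Fin d → ModOf V₀ a₀),
        Function.Bijective (Fintype.linearCombination P₀.T b)) →
      NC.congIdeal pt = cohCong (wilesLevel p t Smin Smin) Smin (eig χ)

/-- **Layer 3 of the cell TW, `Plus` form: `AutPlusStatement` from the leaves.** -/
theorem autPlus_of_leaves (hIdem : IdemStatement) (hMod0 : Mod0Statement)
    (hNon : NontrivStatement) (hModQ : ModQStatement) (hFree : FreeQStatement)
    (hCtrl : CtrlStatement) (hCmp : CmpStatement) (hBridge : BridgeStatement) :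
    AutPlusStatement := by
  intro p hpF 𝒪 _ _ _ _ _ _ ρbar Smin hh hc t ht hN P₀ χ hχ hθ pt hpt
  -- the minimal level
  obtain ⟨V₀, hV₀⟩ := hIdem 𝒪 (wilesLevel p t Smin Smin) (NeZero.ne _)
    (Gamma0 (wilesLevel p t Smin Smin)) (isMid_Gamma0 _) (TsetOf P₀) ∅
    (by
      rintro ⟨ℓ, c⟩ ⟨hℓ, hℓN, -, -⟩
      exact ⟨hℓ, hℓN⟩)
    (by
      intro x hx
      exact absurd hx (Set.notMem_empty x))
  have hV₀' : IsMinPart P₀ V₀ := hV₀
  obtain ⟨a₀, ha₀⟩ := hMod0 p 𝒪 ρbar Smin hh t ht P₀ V₀ hV₀'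
  have hnt : Nontrivial V₀ := hNon p 𝒪 ρbar Smin hh t ht P₀ V₀ hV₀'
  refine ⟨ModOf V₀ a₀, inferInstance, inferInstance, hnt,
    hBridge p 𝒪 ρbar Smin hh hc t ht P₀ χ hχ hθ pt hpt V₀ hV₀' a₀ ha₀, ?_⟩
  intro n r qv hq hNQ PQ res hres
  obtain ⟨hinj, hqv, hfrob⟩ := id hq
  have hprime : ∀ j, (qv j).Prime := fun j => (hqv j).1
  -- lifts of Frobenius eigenvalues
  choose Pv φv hPv hφv using fun j => Fermat.Agent.S54.exists_frobenius (qv j) (hprime j)
  choose αk βk hαβ hchar using fun j => hfrob j (Pv j) (hPv j) (φv j) (hφv j)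
  choose α hα using fun j => residue_surjective (αk j)
  have hFL : IsFrobLift ρbar qv α := fun j =>
    ⟨Pv j, φv j, βk j, hPv j, hφv j, by rw [hα]; exact hαβ j, by rw [hα]; exact hchar j⟩
  -- the level `Q`
  have hM : bLevel (wilesLevel p t Smin Smin) qv ≠ 0 :=
    Nat.mul_ne_zero (NeZero.ne _) (Finset.prod_ne_zero_iff.mpr fun j _ => (hprime j).ne_zero)
  obtain ⟨V, hV⟩ := hIdem 𝒪 (bLevel (wilesLevel p t Smin Smin) qv) hM
    (KQ p (wilesLevel p t Smin Smin) qv) (isMid_KQ p _ qv) (TsetOf PQ) (UsetOf qv α)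
    (by
      rintro ⟨ℓ, c⟩ ⟨hℓ, hℓN, hℓS, -⟩
      exact ⟨hℓ, not_dvd_bLevel hℓ hprime hℓN hℓS⟩)
    (by
      rintro ⟨q, c⟩ ⟨j, hj⟩
      have h1 : q = qv j := congrArg Prod.fst hj
      rw [h1]
      exact ⟨hprime j, dvd_bLevel _ qv j⟩)
  have hV' : IsQPart PQ α V := hV
  obtain ⟨h, a, hhalf, ha⟩ :=
    hModQ p 𝒪 ρbar Smin hh t ht P₀ n r qv hq PQ res hres α hFL V hV'
  exact exists_autLevel P₀ PQ res α V₀ a₀ V h a hh.hSmin hh.hpSmin hinj hprime
    (fun j => (hqv j).2.1) hres hV₀' ha₀ hV' ha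
    (hFree p 𝒪 ρbar Smin hh t ht P₀ n r qv hq PQ res hres α hFL V hV')
    (hCtrl p 𝒪 ρbar Smin hh t ht P₀ n r qv hq PQ res hres α hFL V₀ V hV₀' hV')
    (hCmp p 𝒪 ρbar Smin hh t ht P₀ n r qv hq PQ res hres α hFL V h a hV' hhalf ha)

end Fermat.Agent.S59.TW.H24
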